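import Mathlib

/-!
# Integrality of the q-expansion of the modular discriminant

`qExpansion 1 Δ` has integer coefficients, constant coefficient `0` and linear coefficient `1`.
Proof: `1728 Δ = E₄³ - E₆²`, `E₄ = 1 + 240 A`, `E₆ = 1 - 504 B` with `A = ∑ σ₃(n) qⁿ`,
`B = ∑ σ₅(n) qⁿ`, and `12 ∣ 5 σ₃(n) + 7 σ₅(n)`.
-/

set_option autoImplicit false

noncomputable section

namespace Fermat.Agent.S22.T17

open UpperHalfPlane ModularForm ModularFormClass EisensteinSeries PowerSeries
open scoped MatrixGroups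

/-- The integral generating series `∑ σ_j(n) Xⁿ`. -/
def sigmaSeries (j : ℕ) : PowerSeries ℤ :=
  PowerSeries.mk fun n => (ArithmeticFunction.sigma j n : ℤ)

@[simp] lemma coeff_sigmaSeries (j n : ℕ) :
    (sigmaSeries j).coeff n = (ArithmeticFunction.sigma j n : ℤ) := by
  simp [sigmaSeries]

lemma qExpansion_E4_eq :
    qExpansion 1 E₄ = (1 + C (240 : ℤ) * sigmaSeries 3).map (Int.castRingHom ℂ) := by
  ext m
  rw [E_qExpansion_coeff _ ⟨2, rfl⟩, PowerSeries.coeff_map, map_add, PowerSeries.coeff_one,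
    PowerSeries.coeff_C_mul, coeff_sigmaSeries]
  rcases eq_or_ne m 0 with rfl | hm
  · simp
  · simp only [hm, if_false]
    rw [show bernoulli 4 = -1 / 30 by decide +kernel]
    push_cast
    norm_num

lemma qExpansion_E6_eq :
    qExpansion 1 E₆ = (1 - C (504 : ℤ) * sigmaSeries 5).map (Int.castRingHom ℂ) := by
  ext m
  rw [E_qExpansion_coeff _ ⟨3, rfl⟩, PowerSeries.coeff_map, map_sub, PowerSeries.coeff_one,
    PowerSeries.coeff_C_mul, coeff_sigmaSeries]
  rcases eq_or_ne m 0 with rfl | hm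
  · simp
  · simp only [hm, if_false]
    rw [show bernoulli 6 = 1 / 42 by decide +kernel]
    push_cast
    norm_num

lemma twelve_dvd_pow (d : ℤ) : (12 : ℤ) ∣ 5 * d ^ 3 + 7 * d ^ 5 := by
  have h : ∀ r : ZMod 12, 5 * r ^ 3 + 7 * r ^ 5 = 0 := by decide
  have := h (d : ZMod 12)
  have h2 : ((5 * d ^ 3 + 7 * d ^ 5 : ℤ) : ZMod 12) = 0 := by
    push_cast
    exact this
  exact (ZMod.intCast_zmod_eq_zero_iff_dvd _ 12).mp h2

lemma twelve_dvd_sigma (n : ℕ) :
    (12 : ℤ) ∣ 5 * (ArithmeticFunction.sigma 3 n : ℤ) + 7 * (ArithmeticFunction.sigma 5 n : ℤ) := by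
  simp only [ArithmeticFunction.sigma_apply]
  push_cast
  rw [Finset.mul_sum, Finset.mul_sum, ← Finset.sum_add_distrib]
  exact Finset.dvd_sum fun d _ => twelve_dvd_pow d

/-- The integral series `(5 A + 7 B) / 12`. -/
def tauLin : PowerSeries ℤ :=
  PowerSeries.mk fun n =>
    (5 * (ArithmeticFunction.sigma 3 n : ℤ) + 7 * (ArithmeticFunction.sigma 5 n : ℤ)) / 12

lemma twelve_mul_tauLin :
    C (12 : ℤ) * tauLin = C (5 : ℤ) * sigmaSeries 3 + C (7 : ℤ) * sigmaSeries 5 := by
  ext n
  rw [PowerSeries.coeff_C_mul, map_add, PowerSeries.coeff_C_mul, PowerSeries.coeff_C_mul,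
    coeff_sigmaSeries, coeff_sigmaSeries, tauLin, PowerSeries.coeff_mk]
  exact Int.mul_ediv_cancel' (twelve_dvd_sigma n)

/-- The integral `q`-expansion of `Δ`. -/
def tauSeries : PowerSeries ℤ :=
  tauLin + C (100 : ℤ) * sigmaSeries 3 ^ 2 + C (8000 : ℤ) * sigmaSeries 3 ^ 3
    - C (147 : ℤ) * sigmaSeries 5 ^ 2

lemma tauSeries_identity :
    (1 + C (240 : ℤ) * sigmaSeries 3) ^ 3 - (1 - C (504 : ℤ) * sigmaSeries 5) ^ 2
      = C (1728 : ℤ) * tauSeries := by
  have h := twelve_mul_tauLin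
  have e : ∀ a b : ℤ, (C (a * b) : PowerSeries ℤ) = C a * C b := fun a b => map_mul _ _ _
  have h' : C (1728 : ℤ) * tauLin = C (144 : ℤ) * (C 5 * sigmaSeries 3 + C 7 * sigmaSeries 5) := by
    rw [← h, show (1728 : ℤ) = 144 * 12 by norm_num, e]; ring
  rw [tauSeries]
  have e240 : (C (240 : ℤ) : PowerSeries ℤ) = 240 := by simp
  have e504 : (C (504 : ℤ) : PowerSeries ℤ) = 504 := by simp
  have e1728 : (C (1728 : ℤ) : PowerSeries ℤ) = 1728 := by simp
  have e144 : (C (144 : ℤ) : PowerSeries ℤ) = 144 := by simp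
  have e100 : (C (100 : ℤ) : PowerSeries ℤ) = 100 := by simp
  have e8000 : (C (8000 : ℤ) : PowerSeries ℤ) = 8000 := by simp
  have e147 : (C (147 : ℤ) : PowerSeries ℤ) = 147 := by simp
  have e5 : (C (5 : ℤ) : PowerSeries ℤ) = 5 := by simp
  have e7 : (C (7 : ℤ) : PowerSeries ℤ) = 7 := by simp
  rw [e1728, e144, e5, e7] at h'
  rw [e240, e504, e1728, e100, e8000, e147]
  linear_combination (-1 : PowerSeries ℤ) * h'



/-- `E₄³ - E₆²` as a level one form of weight 12. -/
def e4CubeSubE6Sq : ModularForm 𝒮ℒ 12 :=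
  ModularForm.mcast (by decide) (E₄.pow 3) - ModularForm.mcast (by decide) (E₆.pow 2)

lemma e4CubeSubE6Sq_apply (z : ℍ) : e4CubeSubE6Sq z = E₄ z ^ 3 - E₆ z ^ 2 := by
  simp only [e4CubeSubE6Sq, coe_mcast, ModularForm.coe_pow, sub_apply, Pi.pow_apply]

lemma qExpansion_e4CubeSubE6Sq :
    qExpansion 1 e4CubeSubE6Sq = qExpansion 1 E₄ ^ 3 - qExpansion 1 E₆ ^ 2 := by
  simp only [e4CubeSubE6Sq, FunLike.coe_sub, coe_mcast,
    ModularForm.qExpansion_sub one_pos one_mem_strictPeriods_SL,
    ModularForm.qExpansion_pow one_pos one_mem_strictPeriods_SL]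

lemma qExpansion_discriminant_smul :
    (1728 : ℂ) • qExpansion 1 ModularForm.discriminant
      = qExpansion 1 E₄ ^ 3 - qExpansion 1 E₆ ^ 2 := by
  rw [← qExpansion_e4CubeSubE6Sq]
  have h := ModularForm.qExpansion_smul one_pos one_mem_strictPeriods_SL (1728 : ℂ)
    CuspForm.discriminant
  have hfun : ((1728 : ℂ) • CuspForm.discriminant : ℍ → ℂ) = e4CubeSubE6Sq := by
    funext z
    rw [e4CubeSubE6Sq_apply]
    have := discriminant_eq_E₄_cube_sub_E₆_sq z
    simp only [Pi.smul_apply, smul_eq_mul, CuspForm.coe_discriminant]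
    rw [this]; ring
  rw [hfun] at h
  rw [h]
  rfl


/-- The `q`-expansion of `Δ` is the image of the integral series `tauSeries`. -/
theorem qExpansion_discriminant_eq_map :
    qExpansion 1 ModularForm.discriminant = tauSeries.map (Int.castRingHom ℂ) := by
  have h := qExpansion_discriminant_smul
  rw [qExpansion_E4_eq, qExpansion_E6_eq, ← map_pow, ← map_pow, ← map_sub,
    tauSeries_identity, map_mul] at h
  have hC : (PowerSeries.map (Int.castRingHom ℂ)) (C (1728 : ℤ)) = C (1728 : ℂ) := by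
    rw [PowerSeries.map_C]; simp
  rw [hC, ← PowerSeries.smul_eq_C_mul] at h
  exact smul_right_injective _ (by norm_num : (1728 : ℂ) ≠ 0) h

lemma coeff_zero_tauSeries : coeff 0 tauSeries = 0 := by
  have h := congrArg (coeff 0) qExpansion_discriminant_eq_map
  rw [PowerSeries.coeff_map] at h
  have h0 : (qExpansion 1 ModularForm.discriminant).coeff 0 = 0 := by
    simpa using CuspFormClass.qExpansion_coeff_zero CuspForm.discriminant one_pos
      one_mem_strictPeriods_SL
  rw [h0, eq_intCast] at h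
  exact_mod_cast h.symm

lemma coeff_one_tauSeries : coeff 1 tauSeries = 1 := by
  have h := congrArg (coeff 1) qExpansion_discriminant_eq_map
  rw [PowerSeries.coeff_map, discriminant_qExpansion_coeff_one, eq_intCast] at h
  exact_mod_cast h.symm

/-- **Integrality of Ramanujan's tau function.** The `q`-expansion of the modular discriminant
is the image of a power series with integer coefficients, with constant coefficient `0` and
linear coefficient `1`. -/
theorem exists_int_qExpansion_discriminant :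
    ∃ P : PowerSeries ℤ, qExpansion 1 ModularForm.discriminant = P.map (Int.castRingHom ℂ) ∧
      coeff 0 P = 0 ∧ coeff 1 P = 1 :=
  ⟨tauSeries, qExpansion_discriminant_eq_map, coeff_zero_tauSeries, coeff_one_tauSeries⟩

/-- Coefficientwise form. -/
theorem exists_int_coeff_qExpansion_discriminant (n : ℕ) :
    ∃ c : ℤ, (qExpansion 1 ModularForm.discriminant).coeff n = (c : ℂ) :=
  ⟨coeff n tauSeries, by rw [qExpansion_discriminant_eq_map, PowerSeries.coeff_map]; rfl⟩

end Fermat.Agent.S22.T17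

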