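import Mathlib
import Fermat.Prelude.Def_ModularForm_HeckeOperator
import Fermat.Agent.S22.T17.TauInt

/-!
# Route T for S22: `q_N`-expansions of the functions `τ ↦ Δ((aτ+b)/d)`, `a d = N`

Generic part (no reference to the conjugates themselves): if
`F τ = c * Δ([a b; 0 d] • τ)` with `a d = N`, then `qExpansion N F` has coefficients
`c * τ(n) * ω ^ n` at `m = a² n` (and `0` elsewhere), where `ω = exp (2πi b / d)` is a power of
`ζ_N = exp (2πi/N)`.
-/

set_option autoImplicit false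

noncomputable section

namespace Fermat.Agent.S22.T17

open PowerSeries UpperHalfPlane ModularForm Function
open scoped MatrixGroups ModularForm Manifold Real

local notation "𝕢" => Periodic.qParam

lemma qParam_add_period {h : ℝ} (hh : h ≠ 0) (w : ℂ) : 𝕢 h (w + h) = 𝕢 h w := by
  have hc : (h : ℂ) ≠ 0 := by exact_mod_cast hh
  simp only [Periodic.qParam]
  rw [show 2 * (Real.pi : ℂ) * Complex.I * (w + h) / h
      = 2 * Real.pi * Complex.I * w / h + 2 * Real.pi * Complex.I by field_simp]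
  rw [Complex.exp_add, Complex.exp_two_pi_mul_I, mul_one]

/-- A function on `ℍ` given everywhere by a convergent series in `q_h` is `h`-periodic. -/
lemma periodic_of_hasSum_qParam {f : ℍ → ℂ} {c : ℕ → ℂ} {h : ℝ} (hh : h ≠ 0)
    (hf : ∀ τ : ℍ, HasSum (fun m : ℕ ↦ c m • 𝕢 h τ ^ m) (f τ)) :
    Periodic (f ∘ ofComplex) h := by
  intro w
  by_cases! hw : 0 < Complex.im w
  · have hw' : 0 < Complex.im (w + h) := by simp [hw]
    simp only [comp_apply, ofComplex_apply_of_im_pos hw', ofComplex_apply_of_im_pos hw]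
    have h1 := hf ⟨w + h, hw'⟩
    have h2 := hf ⟨w, hw⟩
    have hq : 𝕢 h ((⟨w + h, hw'⟩ : ℍ) : ℂ) = 𝕢 h ((⟨w, hw⟩ : ℍ) : ℂ) :=
      qParam_add_period hh w
    rw [hq] at h1
    exact h1.unique h2
  · have : Complex.im (w + h) ≤ 0 := by simpa using hw
    simp [ofComplex_apply_of_im_nonpos this, ofComplex_apply_of_im_nonpos hw]

/-- A holomorphic function on `ℍ` given everywhere by a convergent series in `q_h` has that series
as its `q`-expansion. -/
theorem qExpansion_eq_mk_of_hasSum {f : ℍ → ℂ} {c : ℕ → ℂ} {h : ℝ} (hh : 0 < h)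
    (hhol : MDiff f) (hf : ∀ τ : ℍ, HasSum (fun m : ℕ ↦ c m • 𝕢 h τ ^ m) (f τ)) :
    qExpansion h f = PowerSeries.mk c := by
  have hper := periodic_of_hasSum_qParam hh.ne' hf
  have hbdd := isBoundedAtImInfty_of_hasSum_qExpansion hh hf
  have han := analyticAt_cuspFunction_zero hh hper hhol hbdd
  have h1 := (hasFPowerSeriesOnBall_cuspFunction hh han hf).hasFPowerSeriesAt
  have h2 : HasFPowerSeriesAt (cuspFunction h f)
      (.ofScalars ℂ fun m ↦ (qExpansion h f).coeff m) 0 := by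
    simpa [qExpansion_coeff, div_eq_mul_inv, mul_comm] using han.hasFPowerSeriesAt
  have h3 := h1.eq_formalMultilinearSeries h2
  ext m
  rw [PowerSeries.coeff_mk]
  simpa using (congr_arg (FormalMultilinearSeries.coeff · m) h3).symm

/-! ### The Möbius action of an upper triangular matrix -/

lemma det_upperTriangularGL_pos (a d : ℕ) (b : ℤ) (had : (a : ℝ) * (d : ℝ) ≠ 0) :
    0 < (upperTriangularGL a b d had).det.val := by
  rw [Matrix.GeneralLinearGroup.val_det_apply, val_upperTriangularGL, Matrix.det_fin_two_of]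
  have h1 : (0 : ℝ) ≤ (a : ℝ) * (d : ℝ) := by positivity
  have h2 := lt_of_le_of_ne h1 (Ne.symm had)
  simpa using h2

lemma coe_upperTriangularGL_smul (a d : ℕ) (b : ℤ) (had : (a : ℝ) * (d : ℝ) ≠ 0) (τ : ℍ) :
    ((upperTriangularGL a b d had • τ : ℍ) : ℂ) = ((a : ℂ) * τ + b) / d := by
  rw [UpperHalfPlane.coe_smul_of_det_pos (det_upperTriangularGL_pos a d b had)]
  simp [UpperHalfPlane.num, UpperHalfPlane.denom, val_upperTriangularGL]

/-- `q₁((aτ+b)/d) = exp(2πi b/d) · q_N(τ)^(a²)` when `a d = N`. -/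
lemma qParam_one_upperTriangularGL_smul {N a d : ℕ} (b : ℤ) (had : (a : ℝ) * (d : ℝ) ≠ 0)
    (hN : a * d = N) (τ : ℍ) :
    𝕢 1 ((upperTriangularGL a b d had • τ : ℍ) : ℂ)
      = Complex.exp (2 * π * Complex.I * b / d) * 𝕢 N τ ^ (a ^ 2) := by
  have ha : (a : ℂ) ≠ 0 := by
    intro h; apply had; have : (a : ℝ) = 0 := by exact_mod_cast h
    rw [this, zero_mul]
  have hd : (d : ℂ) ≠ 0 := by
    intro h; apply had; have : (d : ℝ) = 0 := by exact_mod_cast h
    rw [this, mul_zero]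
  have hNc : (N : ℂ) = a * d := by rw [← hN]; push_cast; ring
  rw [coe_upperTriangularGL_smul]
  simp only [Periodic.qParam]
  rw [← Complex.exp_nat_mul, ← Complex.exp_add]
  congr 1
  push_cast
  rw [hNc]
  field_simp
  ring

/-! ### The `q_N`-expansion of `τ ↦ Δ((aτ+b)/d)` -/

/-- The `m`-th `q_N`-coefficient of `τ ↦ Δ((aτ+b)/d)`, where `ω = exp (2πi b/d)`. -/
def conjCoeff (a : ℕ) (ω : ℂ) (m : ℕ) : ℂ :=
  if a ^ 2 ∣ m then ((coeff (m / a ^ 2) tauSeries : ℤ) : ℂ) * ω ^ (m / a ^ 2) else 0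

lemma hasSum_discriminant (τ : ℍ) :
    HasSum (fun n : ℕ ↦ ((coeff n tauSeries : ℤ) : ℂ) * 𝕢 1 τ ^ n)
      (ModularForm.discriminant τ) := by
  have h := ModularForm.hasSum_qExpansion CuspForm.discriminant one_pos
    one_mem_strictPeriods_SL τ
  rw [CuspForm.coe_discriminant, qExpansion_discriminant_eq_map] at h
  simpa [PowerSeries.coeff_map] using h

theorem hasSum_discriminant_upperTriangularGL {N a d : ℕ} (b : ℤ)
    (had : (a : ℝ) * (d : ℝ) ≠ 0) (hN : a * d = N) (τ : ℍ) :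
    HasSum (fun m : ℕ ↦ conjCoeff a (Complex.exp (2 * π * Complex.I * b / d)) m • 𝕢 N τ ^ m)
      (ModularForm.discriminant (upperTriangularGL a b d had • τ)) := by
  have ha : 0 < a := by
    rcases Nat.eq_zero_or_pos a with h | h
    · exfalso; apply had; rw [h]; simp
    · exact h
  have ha2 : 0 < a ^ 2 := by positivity
  have h := hasSum_discriminant (upperTriangularGL a b d had • τ)
  rw [qParam_one_upperTriangularGL_smul b had hN τ] at h
  set ω := Complex.exp (2 * π * Complex.I * b / d) with hω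
  set q := 𝕢 N τ with hq
  have hinj : Function.Injective (fun n : ℕ ↦ a ^ 2 * n) :=
    fun x y hxy ↦ Nat.eq_of_mul_eq_mul_left ha2 hxy
  have hzero : ∀ m ∉ Set.range (fun n : ℕ ↦ a ^ 2 * n), conjCoeff a ω m • q ^ m = 0 := by
    intro m hm
    have : ¬ a ^ 2 ∣ m := fun ⟨n, hn⟩ ↦ hm ⟨n, hn.symm⟩
    simp [conjCoeff, this]
  rw [← hinj.hasSum_iff hzero]
  convert h using 1
  funext n
  simp only [Function.comp_apply, conjCoeff, dvd_mul_right, if_true,
    Nat.mul_div_cancel_left n ha2, smul_eq_mul]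
  rw [mul_pow, ← pow_mul]
  ring

/-- `τ ↦ Δ((aτ+b)/d)` is holomorphic. -/
lemma mdifferentiable_discriminant_comp (a d : ℕ) (b : ℤ) (had : (a : ℝ) * (d : ℝ) ≠ 0) :
    MDiff (fun τ : ℍ ↦ ModularForm.discriminant (upperTriangularGL a b d had • τ)) := by
  have h1 : MDiff (CuspForm.discriminant : ℍ → ℂ) := CuspFormClass.holo CuspForm.discriminant
  exact h1.comp (mdifferentiable_smul (det_upperTriangularGL_pos a d b had))

/-- **`q_N`-expansion of a conjugate.** If `F τ = C · Δ((aτ+b)/d)` with `a d = N`, then the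
`q_N`-expansion of `F` is `∑ₙ C τ(n) ωⁿ X^(a² n)`, `ω = exp (2πi b/d)`. -/
theorem qExpansion_of_eq_discriminant_comp {N a d : ℕ} (hNpos : 0 < N) (b : ℤ)
    (had : (a : ℝ) * (d : ℝ) ≠ 0) (hN : a * d = N) (C : ℂ) (F : ℍ → ℂ)
    (hF : ∀ τ : ℍ, F τ = C * ModularForm.discriminant (upperTriangularGL a b d had • τ)) :
    qExpansion N F = PowerSeries.mk fun m ↦
      C * conjCoeff a (Complex.exp (2 * π * Complex.I * b / d)) m := by
  have hNr : (0 : ℝ) < N := by exact_mod_cast hNpos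
  have hFeq : F = C • fun τ : ℍ ↦ ModularForm.discriminant (upperTriangularGL a b d had • τ) := by
    funext τ; simp [hF τ]
  have hhol : MDiff F := by
    rw [hFeq]
    exact (mdifferentiable_discriminant_comp a d b had).const_smul C
  refine qExpansion_eq_mk_of_hasSum hNr hhol fun τ ↦ ?_
  rw [hF τ]
  have h := (hasSum_discriminant_upperTriangularGL b had hN τ).mul_left C
  simpa [mul_assoc] using h

/-! ### Roots of unity in a subring -/

/-- `ζ_N = exp (2πi/N)`. -/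
def zetaN (N : ℕ) : ℂ := Complex.exp (2 * π * Complex.I / N)

lemma zetaN_pow_self {N : ℕ} (hN : 0 < N) : zetaN N ^ N = 1 := by
  have hNc : (N : ℂ) ≠ 0 := by exact_mod_cast hN.ne'
  rw [zetaN, ← Complex.exp_nat_mul, mul_div_cancel₀ _ hNc, Complex.exp_two_pi_mul_I]

lemma zetaN_ne_zero (N : ℕ) : zetaN N ≠ 0 := Complex.exp_ne_zero _

lemma zpow_mem_of_pow_eq_one {R : Subring ℂ} {ζ : ℂ} (hζ : ζ ∈ R) {n : ℕ} (hn : 0 < n)
    (h1 : ζ ^ n = 1) (k : ℤ) : ζ ^ k ∈ R := by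
  have hζ0 : ζ ≠ 0 := by
    rintro rfl
    rw [zero_pow hn.ne'] at h1
    exact zero_ne_one h1
  have hk : k = k % (n : ℤ) + (n : ℤ) * (k / (n : ℤ)) := (Int.emod_add_mul_ediv k n).symm
  have hnn : (0 : ℤ) ≤ k % (n : ℤ) := Int.emod_nonneg _ (by exact_mod_cast hn.ne')
  have : ζ ^ k = ζ ^ (k % (n : ℤ)).toNat := by
    conv_lhs => rw [hk]
    rw [zpow_add₀ hζ0, zpow_mul, zpow_natCast, h1, one_zpow, mul_one]
    conv_lhs => rw [← Int.toNat_of_nonneg hnn]
    rw [zpow_natCast]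
  rw [this]
  exact pow_mem hζ _

/-- `exp (2πi b/d) = ζ_N ^ (a b)` when `a d = N`. -/
lemma exp_eq_zetaN_zpow {N a d : ℕ} (b : ℤ) (had : (a : ℝ) * (d : ℝ) ≠ 0) (hN : a * d = N) :
    Complex.exp (2 * π * Complex.I * b / d) = zetaN N ^ ((a : ℤ) * b) := by
  have ha : (a : ℂ) ≠ 0 := by
    intro h; apply had; have : (a : ℝ) = 0 := by exact_mod_cast h
    rw [this, zero_mul]
  have hd : (d : ℂ) ≠ 0 := by
    intro h; apply had; have : (d : ℝ) = 0 := by exact_mod_cast h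
    rw [this, mul_zero]
  have hNc : (N : ℂ) = a * d := by rw [← hN]; push_cast; ring
  rw [zetaN, ← Complex.exp_int_mul]
  congr 1
  push_cast
  rw [hNc]
  field_simp

lemma exp_mem_of_zetaN_mem {R : Subring ℂ} {N a d : ℕ} (hNpos : 0 < N) (hζ : zetaN N ∈ R)
    (b : ℤ) (had : (a : ℝ) * (d : ℝ) ≠ 0) (hN : a * d = N) :
    Complex.exp (2 * π * Complex.I * b / d) ∈ R := by
  rw [exp_eq_zetaN_zpow b had hN]
  exact zpow_mem_of_pow_eq_one hζ hNpos (zetaN_pow_self hNpos) _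

lemma exp_inv_mem_of_zetaN_mem {R : Subring ℂ} {N a d : ℕ} (hNpos : 0 < N) (hζ : zetaN N ∈ R)
    (b : ℤ) (had : (a : ℝ) * (d : ℝ) ≠ 0) (hN : a * d = N) :
    (Complex.exp (2 * π * Complex.I * b / d))⁻¹ ∈ R := by
  rw [exp_eq_zetaN_zpow b had hN, ← zpow_neg]
  exact zpow_mem_of_pow_eq_one hζ hNpos (zetaN_pow_self hNpos) _

/-! ### Elementary properties of the coefficients -/

lemma conjCoeff_mem {R : Subring ℂ} {ω : ℂ} (hω : ω ∈ R) (a m : ℕ) : conjCoeff a ω m ∈ R := by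
  unfold conjCoeff
  split_ifs
  · exact mul_mem (intCast_mem R _) (pow_mem hω _)
  · exact zero_mem R

lemma conjCoeff_zero (a : ℕ) (ω : ℂ) : conjCoeff a ω 0 = 0 := by
  simp [conjCoeff, coeff_zero_tauSeries]

lemma conjCoeff_of_lt {a m : ℕ} (ω : ℂ) (hm : m < a ^ 2) : conjCoeff a ω m = 0 := by
  rcases Nat.eq_zero_or_pos m with rfl | hpos
  · exact conjCoeff_zero a ω
  · have : ¬ a ^ 2 ∣ m := fun h ↦ absurd (Nat.le_of_dvd hpos h) (not_le.mpr hm)
    simp [conjCoeff, this]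

lemma conjCoeff_sq {a : ℕ} (ha : 0 < a) (ω : ℂ) : conjCoeff a ω (a ^ 2) = ω := by
  have ha2 : 0 < a ^ 2 := by positivity
  simp [conjCoeff, Nat.div_self ha2, coeff_one_tauSeries]

/-! ### Main statements, for a subring `R ∋ ζ_N` -/

/-- If `F τ = N^11 a^12 Δ((aτ+b)/d)` with `a d = N`, then the `q_N`-expansion of `F` has
coefficients in any subring containing `ζ_N`. -/
theorem exists_qExpansion_eq_map_of_eq_discriminant_comp {N : ℕ} (hNpos : 0 < N)
    (R : Subring ℂ) (hζ : Complex.exp (2 * π * Complex.I / N) ∈ R)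
    (F : ℍ → ℂ) (a d : ℕ) (b : ℤ) (had : (a : ℝ) * (d : ℝ) ≠ 0) (hN : a * d = N)
    (hF : ∀ τ : ℍ, F τ = (N : ℂ) ^ 11 * (a : ℂ) ^ 12 *
      ModularForm.discriminant (upperTriangularGL a b d had • τ)) :
    ∃ Θ : PowerSeries R, qExpansion N F = Θ.map R.subtype := by
  have hω := exp_mem_of_zetaN_mem hNpos hζ b had hN
  refine ⟨PowerSeries.mk fun m ↦ ⟨(N : ℂ) ^ 11 * (a : ℂ) ^ 12 *
    conjCoeff a (Complex.exp (2 * π * Complex.I * b / d)) m,
    mul_mem (mul_mem (pow_mem (natCast_mem R N) _) (pow_mem (natCast_mem R a) _))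
      (conjCoeff_mem hω a m)⟩, ?_⟩
  rw [qExpansion_of_eq_discriminant_comp hNpos b had hN _ F hF]
  ext m
  simp [PowerSeries.coeff_map]

/-- If `F₀ τ = N^11 a₀^12 Δ((a₀τ+b₀)/d₀)` with `a₀ = N` and `F τ = N^11 a^12 Δ((aτ+b)/d)` with
`a ≠ N` (`a d = N = a₀ d₀`), then `qExpansion N F₀ - qExpansion N F = u X^s W` with `u ≠ 0` and
`W ∈ 1 + X R⟦X⟧`, for any subring `R ∋ ζ_N`. -/
theorem exists_qExpansion_sub_eq_of_eq_discriminant_comp {N : ℕ} (hNpos : 0 < N)
    (R : Subring ℂ) (hζ : Complex.exp (2 * π * Complex.I / N) ∈ R)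
    (F₀ : ℍ → ℂ) (a₀ d₀ : ℕ) (b₀ : ℤ) (had₀ : (a₀ : ℝ) * (d₀ : ℝ) ≠ 0) (hN₀ : a₀ * d₀ = N)
    (ha₀ : a₀ = N)
    (hF₀ : ∀ τ : ℍ, F₀ τ = (N : ℂ) ^ 11 * (a₀ : ℂ) ^ 12 *
      ModularForm.discriminant (upperTriangularGL a₀ b₀ d₀ had₀ • τ))
    (F : ℍ → ℂ) (a d : ℕ) (b : ℤ) (had : (a : ℝ) * (d : ℝ) ≠ 0) (hN : a * d = N)
    (ha : a ≠ N)
    (hF : ∀ τ : ℍ, F τ = (N : ℂ) ^ 11 * (a : ℂ) ^ 12 *
      ModularForm.discriminant (upperTriangularGL a b d had • τ)) :
    ∃ (u : ℂ) (s : ℕ) (W : PowerSeries R), u ≠ 0 ∧ constantCoeff W = 1 ∧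
      qExpansion N F₀ - qExpansion N F = C u * X ^ s * W.map R.subtype := by
  -- notation
  set ω := Complex.exp (2 * π * Complex.I * b / d) with hωdef
  set ω₀ := Complex.exp (2 * π * Complex.I * b₀ / d₀) with hω₀def
  have hω : ω ∈ R := exp_mem_of_zetaN_mem hNpos hζ b had hN
  have hωi : ω⁻¹ ∈ R := exp_inv_mem_of_zetaN_mem hNpos hζ b had hN
  have hω₀ : ω₀ ∈ R := exp_mem_of_zetaN_mem hNpos hζ b₀ had₀ hN₀
  have hω0 : ω ≠ 0 := Complex.exp_ne_zero _
  have hapos : 0 < a := by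
    rcases Nat.eq_zero_or_pos a with h | h
    · exfalso; apply had; rw [h]; simp
    · exact h
  have hdpos : 0 < d := by
    rcases Nat.eq_zero_or_pos d with h | h
    · exfalso; apply had; rw [h]; simp
    · exact h
  have haN : a < N := by
    have hle : a ≤ N := by
      rw [← hN]; exact Nat.le_mul_of_pos_right a hdpos
    exact lt_of_le_of_ne hle ha
  have ha2N2 : a ^ 2 < N ^ 2 := Nat.pow_lt_pow_left haN (by norm_num)
  have hNc : (N : ℂ) ≠ 0 := by exact_mod_cast hNpos.ne'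
  have hac : (a : ℂ) ≠ 0 := by exact_mod_cast hapos.ne'
  have hNad : (N : ℂ) = a * d := by rw [← hN]; push_cast; ring
  -- the two expansions
  have e₀ := qExpansion_of_eq_discriminant_comp hNpos b₀ had₀ hN₀ _ F₀ hF₀
  have e := qExpansion_of_eq_discriminant_comp hNpos b had hN _ F hF
  rw [← hω₀def] at e₀
  rw [← hωdef] at e
  -- the series `W`
  let Wc : ℕ → R := fun m ↦ ⟨ω⁻¹ * conjCoeff a ω (m + a ^ 2)
      - (d : ℂ) ^ 12 * ω⁻¹ * conjCoeff a₀ ω₀ (m + a ^ 2),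
    sub_mem (mul_mem hωi (conjCoeff_mem hω a _))
      (mul_mem (mul_mem (pow_mem (natCast_mem R d) _) hωi) (conjCoeff_mem hω₀ a₀ _))⟩
  refine ⟨-((N : ℂ) ^ 11 * (a : ℂ) ^ 12 * ω), a ^ 2, PowerSeries.mk Wc, ?_, ?_, ?_⟩
  · exact neg_ne_zero.mpr (mul_ne_zero (mul_ne_zero (pow_ne_zero _ hNc) (pow_ne_zero _ hac)) hω0)
  · rw [← PowerSeries.coeff_zero_eq_constantCoeff_apply, PowerSeries.coeff_mk]
    apply Subtype.ext
    simp only [Wc, zero_add, OneMemClass.coe_one]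
    rw [conjCoeff_sq hapos, inv_mul_cancel₀ hω0, ha₀, conjCoeff_of_lt ω₀ ha2N2]
    ring
  · rw [e₀, e]
    ext j
    rw [map_sub, PowerSeries.coeff_mk, PowerSeries.coeff_mk,
      mul_assoc (C _) (X ^ _) (PowerSeries.map _ _), PowerSeries.coeff_C_mul,
      PowerSeries.coeff_X_pow_mul']
    split_ifs with hj
    · obtain ⟨m, rfl⟩ : ∃ m, j = m + a ^ 2 := ⟨j - a ^ 2, (Nat.sub_add_cancel hj).symm⟩
      rw [Nat.add_sub_cancel, PowerSeries.coeff_map, PowerSeries.coeff_mk]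
      simp only [Wc, Subring.subtype_apply]
      rw [ha₀] at *
      have : (N : ℂ) ^ 12 = (a : ℂ) ^ 12 * (d : ℂ) ^ 12 := by rw [hNad]; ring
      field_simp
      rw [this]
      ring
    · have hj' : j < a ^ 2 := not_le.mp hj
      rw [conjCoeff_of_lt ω hj', conjCoeff_of_lt ω₀ (ha₀ ▸ hj'.trans ha2N2)]
      simp

end Fermat.Agent.S22.T17
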