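import Mathlib
import Fermat.Agent.S22.T17.TauInt

/-!
# Route T for S22, piece "Tau": the `q`-expansion of `Δ` has integer coefficients
(Ramanujan `τ(n) ∈ ℤ`), constant term `0` and linear coefficient `1`.
The proof is in `Fermat.Agent.S22.T17.TauInt`.
-/

set_option autoImplicit false

namespace Fermat.Agent.S22.T17

open PowerSeries UpperHalfPlane

theorem exists_tau : ∃ T : PowerSeries ℤ,
    T.map (Int.castRingHom ℂ) = qExpansion 1 ModularForm.discriminant ∧
      constantCoeff T = 0 ∧ coeff 1 T = 1 := by
  refine ⟨tauSeries, qExpansion_discriminant_eq_map.symm, ?_, coeff_one_tauSeries⟩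
  rw [← PowerSeries.coeff_zero_eq_constantCoeff_apply]
  exact coeff_zero_tauSeries

end Fermat.Agent.S22.T17
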